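import Mathlib

set_option autoImplicit false

/-!
# Primitives of holomorphic periodic functions on the upper half plane vanishing at `i∞`
-/

open UpperHalfPlane Filter Topology Function
open scoped Manifold Real

namespace Fermat.Agent.Eichler

/-- Holomorphic functions on `ℍ`, periodic with respect to some positive integer, and
tending to zero at `i∞`. -/
def QSpace : Submodule ℂ (ℍ → ℂ) where
  carrier := {g | MDiff g ∧ IsZeroAtImInfty g ∧ ∃ h : ℕ, 0 < h ∧ Periodic (g ∘ ofComplex) (h : ℂ)}
  zero_mem' := ⟨mdifferentiable_const, tendsto_const_nhds, 1, one_pos, fun _ => rfl⟩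
  add_mem' := by
    rintro f g ⟨hf1, hf2, a, ha, hfp⟩ ⟨hg1, hg2, b, hb, hgp⟩
    refine ⟨hf1.add hg1, ?_, a * b, Nat.mul_pos ha hb, ?_⟩
    · simpa [IsZeroAtImInfty, ZeroAtFilter] using hf2.add hg2
    · intro z
      have h1 := (hfp.nat_mul b) z
      have h2 := (hgp.nat_mul a) z
      simp only [comp_apply, Pi.add_apply] at h1 h2 ⊢
      push_cast
      rw [mul_comm (a : ℂ) (b : ℂ), h1, mul_comm (b : ℂ) (a : ℂ), h2]
  smul_mem' := by
    rintro c f ⟨hf1, hf2, a, ha, hfp⟩
    refine ⟨hf1.const_smul c, ?_, a, ha, ?_⟩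
    · have := hf2.const_smul c
      rw [smul_zero] at this
      exact this
    · intro z
      have h1 := hfp z
      simp only [comp_apply, Pi.smul_apply] at h1 ⊢
      rw [h1]

/-- `F` is a primitive of `g` on `ℍ`. -/
def IsPrim (F g : ℍ → ℂ) : Prop := ∀ z : ℍ, HasDerivAt (F ∘ ofComplex) (g z) (z : ℂ)

theorem IsPrim.mdiff {F g : ℍ → ℂ} (h : IsPrim F g) : MDiff F :=
  fun z => mdifferentiableAt_iff.mpr (h z).differentiableAt

theorem IsPrim.add {F g F' g' : ℍ → ℂ} (h : IsPrim F g) (h' : IsPrim F' g') :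
    IsPrim (F + F') (g + g') := fun z => (h z).add (h' z)

theorem IsPrim.smul {F g : ℍ → ℂ} (c : ℂ) (h : IsPrim F g) :
    IsPrim (c • F) (c • g) := fun z => (h z).const_smul c

theorem IsPrim.sub {F g F' g' : ℍ → ℂ} (h : IsPrim F g) (h' : IsPrim F' g') :
    IsPrim (F - F') (g - g') := fun z => (h z).sub (h' z)

theorem IsPrim.unique_right {F g g' : ℍ → ℂ} (h : IsPrim F g) (h' : IsPrim F g') : g = g' :=
  funext fun z => (h z).unique (h' z)

/-- A function on `ℍ` with zero derivative is constant. -/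
theorem IsPrim.eq_const {F : ℍ → ℂ} (h : IsPrim F 0) (z w : ℍ) : F z = F w := by
  have h1 : IsPreconnected {z : ℂ | 0 < z.im} :=
    (Complex.isConnected_of_upperHalfPlane subset_rfl (by grind)).isPreconnected
  have h2 : DifferentiableOn ℂ (F ∘ ofComplex) {z : ℂ | 0 < z.im} := fun z hz =>
    (h ⟨z, hz⟩).differentiableAt.differentiableWithinAt
  have h3 : Set.EqOn (deriv (F ∘ ofComplex)) 0 {z : ℂ | 0 < z.im} := fun z hz =>
    (h ⟨z, hz⟩).deriv
  have := isOpen_upperHalfPlaneSet.is_const_of_deriv_eq_zero h1 h2 h3 z.im_pos w.im_pos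
  simpa [ofComplex_apply] using this

theorem eq_of_const_of_tendsto {F : ℍ → ℂ} (hF : ∀ z w : ℍ, F z = F w)
    (h0 : IsZeroAtImInfty F) : F = 0 := by
  funext z
  have h1 : F = fun _ => F z := funext fun w => hF w z
  have h2 : Tendsto (fun _ : ℍ => F z) atImInfty (𝓝 0) := h1 ▸ h0
  exact tendsto_nhds_unique tendsto_const_nhds h2

theorem IsPrim.unique {F F' g : ℍ → ℂ} (h : IsPrim F g) (h' : IsPrim F' g)
    (h0 : IsZeroAtImInfty F) (h0' : IsZeroAtImInfty F') : F = F' := by
  have h1 : IsPrim (F - F') 0 := by simpa using h.sub h'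
  have h2 : IsZeroAtImInfty (F - F') := by
    have := Tendsto.sub h0 h0'
    rw [sub_zero] at this
    exact this
  exact sub_eq_zero.mp (eq_of_const_of_tendsto h1.eq_const h2)

/-- Existence of primitives in `QSpace`. -/
theorem exists_prim {g : ℍ → ℂ} (hg : g ∈ QSpace) : ∃ F ∈ QSpace, IsPrim F g := by
  obtain ⟨h1, h2, h, hh, hper⟩ := hg
  have hh' : (0 : ℝ) < h := by exact_mod_cast hh
  have hper' : Periodic (g ∘ ofComplex) ((h : ℝ) : ℂ) := by simpa using hper
  set G : ℂ → ℂ := cuspFunction (h : ℝ) g with hG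
  have hGdiff : DifferentiableOn ℂ G (Metric.ball 0 1) :=
    differentiableOn_cuspFunction_ball hh' hper' h1 h2.isBoundedAtImInfty
  have hG0 : G 0 = 0 := h2.cuspFunction_apply_zero hh'
  have hD : DifferentiableOn ℂ (dslope G 0) (Metric.ball 0 1) :=
    (Complex.differentiableOn_dslope (Metric.ball_mem_nhds _ one_pos)).mpr hGdiff
  obtain ⟨H, hH0, hH⟩ := hD.isExactOn_ball.with_val_at 0 0
  set F : ℍ → ℂ := fun z => ((h : ℂ) / (2 * π * Complex.I)) * H (Periodic.qParam (h : ℝ) z) with hF
  have hprim : IsPrim F g := by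
    intro z
    have hq1 : ‖Periodic.qParam (h : ℝ) z‖ < 1 := Periodic.norm_qParam_lt_one hh' z.im_pos
    have hq0 : Periodic.qParam (h : ℝ) z ≠ 0 := Periodic.qParam_ne_zero _
    have hqd : HasDerivAt (Periodic.qParam (h : ℝ))
        (Periodic.qParam (h : ℝ) z * (2 * π * Complex.I / (h : ℝ))) (z : ℂ) := by
      have := ((hasDerivAt_id (z : ℂ)).const_mul (2 * π * Complex.I)).div_const ((h : ℝ) : ℂ)
      have h2 := this.cexp
      simp only [id, mul_one] at h2
      exact h2
    have hHd := hH _ (mem_ball_zero_iff.mpr hq1)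
    have hcomp := (hHd.comp (z : ℂ) hqd).const_mul ((h : ℂ) / (2 * π * Complex.I))
    have hval : (h : ℂ) / (2 * π * Complex.I) *
        (dslope G 0 (Periodic.qParam (h : ℝ) z) *
          (Periodic.qParam (h : ℝ) z * (2 * π * Complex.I / (h : ℝ)))) = g z := by
      rw [dslope_of_ne _ hq0, slope_def_field, hG0, sub_zero, sub_zero, hG,
        eq_cuspFunction z hh'.ne' hper']
      have : (h : ℂ) ≠ 0 := by exact_mod_cast hh.ne'
      have hpi : (2 * π * Complex.I : ℂ) ≠ 0 := Complex.two_pi_I_ne_zero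
      push_cast
      field_simp
    rw [hval] at hcomp
    refine hcomp.congr_of_eventuallyEq ?_
    filter_upwards [isOpen_upperHalfPlaneSet.mem_nhds z.im_pos] with w hw
    simp [hF, ofComplex_apply_of_im_pos hw]
  refine ⟨F, ⟨hprim.mdiff, ?_, h, hh, ?_⟩, hprim⟩
  · have hc : ContinuousAt H 0 := (hH 0 (Metric.mem_ball_self one_pos)).continuousAt
    have := (hc.tendsto.comp (qParam_tendsto_atImInfty hh')).const_mul
      ((h : ℂ) / (2 * π * Complex.I))
    rw [hH0, mul_zero] at this
    exact this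
  · intro w
    by_cases hw : 0 < w.im
    · have hw' : 0 < (w + h).im := by simpa using hw
      simp only [comp_apply, ofComplex_apply_of_im_pos hw, ofComplex_apply_of_im_pos hw', hF]
      congr 2
      have hne : (h : ℂ) ≠ 0 := by exact_mod_cast hh.ne'
      show Periodic.qParam (h : ℝ) (w + h) = Periodic.qParam (h : ℝ) w
      have : (2 * π * Complex.I * (w + h) / ((h : ℝ) : ℂ)) =
          (2 * π * Complex.I * w / ((h : ℝ) : ℂ)) + 2 * π * Complex.I := by
        push_cast; field_simp
      rw [Periodic.qParam, this, Complex.exp_add, Complex.exp_two_pi_mul_I, mul_one]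
      rfl
    · have hw2 : w.im ≤ 0 := not_lt.mp hw
      have hw' : (w + h).im ≤ 0 := by simpa using hw2
      simp only [comp_apply, ofComplex_apply_eq_of_im_nonpos hw' hw2]

/-- The canonical primitive operator on `QSpace`. -/
noncomputable def prim : QSpace →ₗ[ℂ] QSpace where
  toFun g := ⟨(exists_prim g.2).choose, (exists_prim g.2).choose_spec.1⟩
  map_add' g g' := by
    apply Subtype.ext
    have h1 := (exists_prim g.2).choose_spec
    have h2 := (exists_prim g'.2).choose_spec
    have h3 := (exists_prim (g + g').2).choose_spec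
    exact h3.2.unique (h1.2.add h2.2) h3.1.2.1 (QSpace.add_mem h1.1 h2.1).2.1
  map_smul' c g := by
    apply Subtype.ext
    have h1 := (exists_prim g.2).choose_spec
    have h3 := (exists_prim (c • g).2).choose_spec
    exact h3.2.unique (h1.2.smul c) h3.1.2.1 (QSpace.smul_mem c h1.1).2.1

theorem isPrim_prim (g : QSpace) : IsPrim (prim g : ℍ → ℂ) (g : ℍ → ℂ) :=
  (exists_prim g.2).choose_spec.2

theorem prim_injective : Function.Injective prim := by
  intro g g' h
  apply Subtype.ext
  exact (isPrim_prim g).unique_right (h ▸ isPrim_prim g')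

/-- Uniqueness of the primitive. -/
theorem eq_prim {g F : QSpace} (h : IsPrim (F : ℍ → ℂ) (g : ℍ → ℂ)) : F = prim g :=
  Subtype.ext (h.unique (isPrim_prim g) F.2.2.1 (prim g).2.2.1)

end Fermat.Agent.Eichler
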