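import Mathlib
import Fermat.Prelude.Def_ModularForm_HeckeOperatorForms
import Fermat.Agent.Eichler.Prim

set_option autoImplicit false

/-!
# Slashing cusp forms by integral matrices of positive determinant
-/

open UpperHalfPlane Filter Topology Function
open Matrix.SpecialLinearGroup CongruenceSubgroup
open scoped Manifold Real MatrixGroups ModularForm Pointwise

namespace Fermat.Agent.Eichler

/-- The monoid of invertible real `2 × 2` matrices with integral entries and positive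
determinant. -/
def intPos : Submonoid (GL (Fin 2) ℝ) where
  carrier := {A | 0 < A.det.val ∧
    ∃ M : Matrix (Fin 2) (Fin 2) ℤ, (A : Matrix (Fin 2) (Fin 2) ℝ) = M.map (Int.cast : ℤ → ℝ)}
  one_mem' := ⟨by simp, 1, by simp⟩
  mul_mem' := by
    rintro A B ⟨hA, M, hM⟩ ⟨hB, M', hM'⟩
    refine ⟨by simpa using mul_pos hA hB, M * M', ?_⟩
    rw [Units.val_mul, hM, hM']
    ext i j
    simp [Matrix.mul_apply]

theorem intPos_det_pos (A : intPos) : 0 < ((A : GL (Fin 2) ℝ)).det.val := A.2.1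

theorem intPos_σ (A : intPos) : σ (A : GL (Fin 2) ℝ) = .refl ℝ ℂ := by
  rw [UpperHalfPlane.σ, if_pos (intPos_det_pos A)]

/-- The integral matrix underlying an element of `intPos`. -/
noncomputable def toInt (A : intPos) : Matrix (Fin 2) (Fin 2) ℤ := A.2.2.choose

theorem coe_eq_toInt (A : intPos) :
    ((A : GL (Fin 2) ℝ) : Matrix (Fin 2) (Fin 2) ℝ) = (toInt A).map (Int.cast : ℤ → ℝ) :=
  A.2.2.choose_spec

theorem apply_eq_toInt (A : intPos) (i j : Fin 2) :
    ((A : GL (Fin 2) ℝ) : Matrix (Fin 2) (Fin 2) ℝ) i j = (toInt A i j : ℝ) := by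
  rw [coe_eq_toInt A]; rfl

theorem det_toInt (A : intPos) : ((toInt A).det : ℝ) = (A : GL (Fin 2) ℝ).det.val := by
  rw [Matrix.GeneralLinearGroup.val_det_apply, coe_eq_toInt A, Matrix.det_fin_two, Matrix.det_fin_two]
  simp

theorem det_toInt_pos (A : intPos) : 0 < (toInt A).det := by
  have := det_toInt A ▸ intPos_det_pos A
  exact_mod_cast this

/-- The inclusion of `SL(2, ℤ)`. -/
noncomputable def ofSL : SL(2, ℤ) →* intPos where
  toFun γ := ⟨mapGL ℝ γ, by simp, (γ : Matrix (Fin 2) (Fin 2) ℤ), by ext i j; simp⟩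
  map_one' := by ext; simp
  map_mul' a b := by ext; simp

@[simp] theorem coe_ofSL (γ : SL(2, ℤ)) : ((ofSL γ : intPos) : GL (Fin 2) ℝ) = mapGL ℝ γ := rfl

theorem heckeMatrix_mem {p : ℕ} (hp : p ≠ 0) (j : ℕ) : ModularForm.heckeMatrix p j ∈ intPos := by
  refine ⟨ModularForm.det_heckeMatrix_pos p j, !![1, (j : ℤ); 0, (p : ℤ)], ?_⟩
  rw [ModularForm.val_heckeMatrix hp]
  ext i k
  fin_cases i <;> fin_cases k <;> simp

theorem heckeDiagMatrix_mem {p : ℕ} (hp : p ≠ 0) : ModularForm.heckeDiagMatrix p ∈ intPos := by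
  refine ⟨ModularForm.det_heckeDiagMatrix_pos p, !![(p : ℤ), 0; 0, 1], ?_⟩
  rw [ModularForm.val_heckeDiagMatrix hp]
  ext i k
  fin_cases i <;> fin_cases k <;> simp

section slash

variable {N : ℕ} [NeZero N] {k : ℤ}

theorem isCusp_smul_infty (A : intPos) :
    IsCusp ((A : GL (Fin 2) ℝ) • OnePoint.infty) (Gamma0 N : Subgroup (GL (Fin 2) ℝ)) := by
  rw [Subgroup.IsArithmetic.isCusp_iff_isCusp_SL2Z, isCusp_SL2Z_iff]
  rw [OnePoint.smul_infty_eq_ite]
  by_cases h : ((A : GL (Fin 2) ℝ) : Matrix (Fin 2) (Fin 2) ℝ) 1 0 = 0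
  · exact ⟨OnePoint.infty, by simp [h]⟩
  · refine ⟨((toInt A 0 0 : ℚ) / (toInt A 1 0 : ℚ) : ℚ), ?_⟩
    rw [if_neg h, apply_eq_toInt A, apply_eq_toInt A]
    simp

theorem isZeroAtImInfty_slash (f : CuspForm (Gamma0 N) k) (A : intPos) :
    IsZeroAtImInfty ((f : ℍ → ℂ) ∣[k] (A : GL (Fin 2) ℝ)) :=
  CuspFormClass.zero_at_cusps f (isCusp_smul_infty A) (A : GL (Fin 2) ℝ) rfl

/-- The matrix `A T^{N det A} A⁻¹`. -/
noncomputable def conjT (N : ℕ) (A : intPos) : SL(2, ℤ) :=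
  ⟨!![1 - N * (toInt A 0 0 * toInt A 1 0), N * (toInt A 0 0 * toInt A 0 0);
      - (N * (toInt A 1 0 * toInt A 1 0)), 1 + N * (toInt A 0 0 * toInt A 1 0)], by
    rw [Matrix.det_fin_two_of]; ring⟩

theorem conjT_mem (N : ℕ) (A : intPos) : conjT N A ∈ Gamma0 N := by
  rw [Gamma0_mem]
  simp [conjT]

theorem mul_upperRightHom_eq (N : ℕ) (A : intPos) :
    (A : GL (Fin 2) ℝ) * Matrix.GeneralLinearGroup.upperRightHom ((N * (toInt A).det.toNat : ℕ) : ℝ) =
      mapGL ℝ (conjT N A) * (A : GL (Fin 2) ℝ) := by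
  have hd : (((toInt A).det.toNat : ℕ) : ℝ) = (toInt A 0 0 : ℝ) * toInt A 1 1 -
      toInt A 0 1 * toInt A 1 0 := by
    have h1 : (((toInt A).det.toNat : ℕ) : ℤ) = (toInt A).det := Int.toNat_of_nonneg (det_toInt_pos A).le
    have h2 : (((toInt A).det.toNat : ℕ) : ℝ) = (((toInt A).det : ℤ) : ℝ) := by
      rw [← Int.cast_natCast, h1]
    rw [h2, Matrix.det_fin_two]; push_cast; ring
  ext i j
  rw [Units.val_mul, Units.val_mul, coe_eq_toInt A, mapGL_coe_matrix, map_apply_coe]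
  fin_cases i <;> fin_cases j <;>
    simp [Matrix.mul_apply, Fin.sum_univ_two, conjT, hd] <;> ring

theorem slash_mem_QSpace (f : CuspForm (Gamma0 N) k) (A : intPos) :
    (f : ℍ → ℂ) ∣[k] (A : GL (Fin 2) ℝ) ∈ QSpace := by
  refine ⟨(CuspFormClass.holo f).slash k _, isZeroAtImInfty_slash f A,
    N * (toInt A).det.toNat, Nat.mul_pos (Nat.pos_of_ne_zero (NeZero.ne N)) ?_, ?_⟩
  · have := (det_toInt_pos A)
    omega
  · have := SlashInvariantFormClass.periodic_comp_ofComplex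
      (h := ((N * (toInt A).det.toNat : ℕ) : ℝ)) (CuspForm.translate f (A : GL (Fin 2) ℝ)) ?_
    · rw [Complex.ofReal_natCast] at this
      exact this
    · rw [Subgroup.mem_strictPeriods_iff, Subgroup.mem_pointwise_smul_iff_inv_smul_mem,
        ← ConjAct.toConjAct_inv, ConjAct.toConjAct_smul, inv_inv, mul_upperRightHom_eq,
        mul_inv_cancel_right]
      exact ⟨conjT N A, conjT_mem N A, rfl⟩

/-- Slashing by an element of `intPos`, as a linear map. -/
noncomputable def slashLin (N : ℕ) [NeZero N] (k : ℤ) (A : intPos) :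
    CuspForm (Gamma0 N) k →ₗ[ℂ] QSpace where
  toFun f := ⟨(f : ℍ → ℂ) ∣[k] (A : GL (Fin 2) ℝ), slash_mem_QSpace f A⟩
  map_add' f g := Subtype.ext (SlashAction.add_slash k (A : GL (Fin 2) ℝ) (f : ℍ → ℂ) (g : ℍ → ℂ))
  map_smul' c f := Subtype.ext (by
    show (⇑(c • f)) ∣[k] (A : GL (Fin 2) ℝ) = c • ((f : ℍ → ℂ) ∣[k] (A : GL (Fin 2) ℝ))
    rw [FunLike.coe_smul, ModularForm.smul_slash, intPos_σ]
    rfl)

@[simp] theorem coe_slashLin (A : intPos) (f : CuspForm (Gamma0 N) k) :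
    (slashLin N k A f : ℍ → ℂ) = (f : ℍ → ℂ) ∣[k] (A : GL (Fin 2) ℝ) := rfl

theorem slashLin_mul_of_mem {γ : SL(2, ℤ)} (hγ : γ ∈ Gamma0 N) (A : intPos) :
    slashLin N k (ofSL γ * A) = slashLin N k A := by
  ext f : 2
  rw [coe_slashLin, coe_slashLin, Submonoid.coe_mul, SlashAction.slash_mul]
  congr 1
  exact SlashInvariantFormClass.slash_action_eq f _ ⟨γ, hγ, rfl⟩

end slash

end Fermat.Agent.Eichler
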