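import Mathlib
import Fermat.Agent.Eichler.IntPos

set_option autoImplicit false

/-!
# Eichler integrals
-/

open UpperHalfPlane Filter Topology Function
open Matrix.SpecialLinearGroup CongruenceSubgroup
open scoped Manifold Real MatrixGroups ModularForm Pointwise Nat

namespace Fermat.Agent.Eichler

/-! ### The action `F ↦ (cx+d)^m F(Ax)` -/

/-- `F ↦ (cx+d)^m F(Ax)` -/
noncomputable def wact (m : ℕ) (A : GL (Fin 2) ℝ) : (ℍ → ℂ) →ₗ[ℂ] (ℍ → ℂ) where
  toFun F := fun x => denom A x ^ m * F (A • x)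
  map_add' F G := by ext x; simp [mul_add]
  map_smul' c F := by ext x; simp [mul_left_comm]

theorem wact_apply (m : ℕ) (A : GL (Fin 2) ℝ) (F : ℍ → ℂ) (x : ℍ) :
    wact m A F x = denom A x ^ m * F (A • x) := rfl

theorem wact_mul (m : ℕ) (A B : intPos) (F : ℍ → ℂ) :
    wact m ((A * B : intPos) : GL (Fin 2) ℝ) F = wact m B (wact m A F) := by
  ext x
  simp only [wact_apply, Submonoid.coe_mul]
  rw [denom_cocycle_σ, intPos_σ, mul_smul, mul_pow]
  simp only [ContinuousAlgEquiv.refl_apply]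
  ring

theorem wact_one (m : ℕ) (F : ℍ → ℂ) : wact m 1 F = F := by
  ext x
  simp [wact_apply]

/-! ### The iterated primitive -/

/-- The `(m+1)`-fold primitive. -/
noncomputable def eich : ℕ → QSpace →ₗ[ℂ] QSpace
  | 0 => prim
  | m + 1 => eich m ∘ₗ prim

theorem eich_injective (m : ℕ) : Function.Injective (eich m) := by
  induction m with
  | zero => exact prim_injective
  | succ m ih => exact ih.comp prim_injective

/-- The Taylor polynomial of the Eichler integral. -/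
noncomputable def Phi : ℕ → QSpace → ℂ → ℍ → ℂ
  | 0, g, _ => (prim g : ℍ → ℂ)
  | m + 1, g, x => fun z => (x - z) ^ (m + 1) / (m + 1)! * (prim g : ℍ → ℂ) z + Phi m (prim g) x z

theorem Phi_self (m : ℕ) (g : QSpace) (z : ℍ) : Phi m g z z = (eich m g : ℍ → ℂ) z := by
  induction m generalizing g with
  | zero => rfl
  | succ m ih => simp [Phi, eich, ih]

theorem isPrim_Phi (m : ℕ) (g : QSpace) (x : ℂ) :
    IsPrim (Phi m g x) (fun z => (x - z) ^ m / m ! * (g : ℍ → ℂ) z) := by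
  induction m generalizing g with
  | zero => simpa [Phi] using isPrim_prim g
  | succ m ih =>
    intro z
    have h1 : HasDerivAt (fun w : ℂ => (x - w) ^ (m + 1) / ((m + 1)! : ℂ))
        (-((x - z) ^ m / (m ! : ℂ))) (z : ℂ) := by
      have h := (((hasDerivAt_id (z : ℂ)).const_sub x).pow (m + 1)).div_const ((m + 1)! : ℂ)
      refine h.congr_deriv ?_
      have : ((m ! : ℕ) : ℂ) ≠ 0 := by exact_mod_cast m.factorial_ne_zero
      have h2 : ((m : ℂ) + 1) ≠ 0 := by exact_mod_cast m.succ_ne_zero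
      rw [Nat.factorial_succ]
      push_cast
      simp only [id]
      field_simp
    have h2 := h1.mul (isPrim_prim g z)
    have h3 := ih (prim g) z
    have h4 := h2.add h3
    refine (h4.congr_of_eventuallyEq ?_).congr_deriv ?_
    · filter_upwards [isOpen_upperHalfPlaneSet.mem_nhds z.im_pos] with w hw
      simp [Phi, ofComplex_apply_of_im_pos hw]
    · simp only [comp_apply, ofComplex_apply]
      ring

theorem IsPrim.congr_right {F f g : ℍ → ℂ} (h : IsPrim F f) (hfg : ∀ z, f z = g z) :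
    IsPrim F g := (funext hfg : f = g) ▸ h

theorem IsPrim.comp_smul {F f : ℍ → ℂ} (h : IsPrim F f) (A : intPos) :
    IsPrim (fun z => F ((A : GL (Fin 2) ℝ) • z)) (fun z => f ((A : GL (Fin 2) ℝ) • z) *
      ((((A : GL (Fin 2) ℝ).val.det : ℝ) : ℂ) / denom (A : GL (Fin 2) ℝ) z ^ 2)) := by
  intro z
  have h1 := (hasStrictDerivAt_smul (g := (A : GL (Fin 2) ℝ)) (intPos_det_pos A) z).hasDerivAt
  have h2 := h ((A : GL (Fin 2) ℝ) • z)
  have h3 : HasDerivAt (F ∘ ofComplex) (f ((A : GL (Fin 2) ℝ) • z))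
      ((fun z : ℂ => (((A : GL (Fin 2) ℝ) • ofComplex z : ℍ) : ℂ)) (z : ℂ)) := by
    simpa [ofComplex_apply] using h2
  have h4 := h3.comp (z : ℂ) h1
  refine h4.congr_of_eventuallyEq ?_
  filter_upwards with w
  simp [ofComplex_apply]

theorem smul_sub_smul (A : intPos) (x z : ℍ) :
    denom (A : GL (Fin 2) ℝ) x * ((((A : GL (Fin 2) ℝ) • x : ℍ) : ℂ) -
      (((A : GL (Fin 2) ℝ) • z : ℍ) : ℂ)) * denom (A : GL (Fin 2) ℝ) z =
      (((A : GL (Fin 2) ℝ).val.det : ℝ) : ℂ) * ((x : ℂ) - z) := by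
  rw [coe_smul_of_det_pos (intPos_det_pos A), coe_smul_of_det_pos (intPos_det_pos A)]
  have h1 := denom_ne_zero (A : GL (Fin 2) ℝ) x
  have h2 := denom_ne_zero (A : GL (Fin 2) ℝ) z
  have h3 : denom (A : GL (Fin 2) ℝ) x * (num (A : GL (Fin 2) ℝ) x / denom (A : GL (Fin 2) ℝ) x -
      num (A : GL (Fin 2) ℝ) z / denom (A : GL (Fin 2) ℝ) z) * denom (A : GL (Fin 2) ℝ) z =
      num (A : GL (Fin 2) ℝ) x * denom (A : GL (Fin 2) ℝ) z -
      num (A : GL (Fin 2) ℝ) z * denom (A : GL (Fin 2) ℝ) x := by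
    field_simp
  rw [h3, Matrix.det_fin_two]
  simp only [num, denom]
  push_cast
  ring

/-- Polynomial functions of degree `≤ m` on `ℍ`. -/
def PolFun (m : ℕ) : Submodule ℂ (ℍ → ℂ) where
  carrier := {F | ∃ P : Polynomial ℂ, P.natDegree ≤ m ∧ ∀ x : ℍ, F x = P.eval (x : ℂ)}
  zero_mem' := ⟨0, by simp, by simp⟩
  add_mem' := by
    rintro F G ⟨P, hP, hP'⟩ ⟨Q, hQ, hQ'⟩
    exact ⟨P + Q, (Polynomial.natDegree_add_le _ _).trans (max_le hP hQ), fun x => by
      simp [hP', hQ']⟩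
  smul_mem' := by
    rintro c F ⟨P, hP, hP'⟩
    exact ⟨c • P, (Polynomial.natDegree_smul_le c P).trans hP, fun x => by simp [hP']⟩

theorem Phi_mem_PolFun (m : ℕ) (g : QSpace) (A : intPos) (w : ℍ) :
    (fun x : ℍ => denom (A : GL (Fin 2) ℝ) x ^ m * Phi m g ((A : GL (Fin 2) ℝ) • x : ℍ) w) ∈
      PolFun m := by
  induction m generalizing g with
  | zero => exact ⟨Polynomial.C ((prim g : ℍ → ℂ) w), by simp, by simp [Phi]⟩
  | succ m ih =>
    obtain ⟨P, hP, hP'⟩ := ih (prim g)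
    set a : ℂ := ((((A : GL (Fin 2) ℝ) : Matrix (Fin 2) (Fin 2) ℝ) 0 0 : ℝ) : ℂ) with ha
    set b : ℂ := ((((A : GL (Fin 2) ℝ) : Matrix (Fin 2) (Fin 2) ℝ) 0 1 : ℝ) : ℂ) with hb
    set c : ℂ := ((((A : GL (Fin 2) ℝ) : Matrix (Fin 2) (Fin 2) ℝ) 1 0 : ℝ) : ℂ) with hc
    set d : ℂ := ((((A : GL (Fin 2) ℝ) : Matrix (Fin 2) (Fin 2) ℝ) 1 1 : ℝ) : ℂ) with hd
    refine ⟨Polynomial.C ((prim g : ℍ → ℂ) w / ((m + 1)! : ℂ)) *
      (Polynomial.C (a - w * c) * Polynomial.X + Polynomial.C (b - w * d)) ^ (m + 1) +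
      (Polynomial.C c * Polynomial.X + Polynomial.C d) * P, ?_, ?_⟩
    · refine (Polynomial.natDegree_add_le _ _).trans (max_le ?_ ?_)
      · refine (Polynomial.natDegree_C_mul_le _ _).trans ?_
        refine (Polynomial.natDegree_pow_le).trans ?_
        calc (m + 1) * _ ≤ (m + 1) * 1 := Nat.mul_le_mul_left _ Polynomial.natDegree_linear_le
          _ = m + 1 := by ring
      · refine (Polynomial.natDegree_mul_le).trans ?_
        have := Polynomial.natDegree_linear_le (a := c) (b := d)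
        omega
    · intro x
      have hx := hP' x
      simp only at hx
      have hden : denom (A : GL (Fin 2) ℝ) x = c * x + d := rfl
      have hne := denom_ne_zero (A : GL (Fin 2) ℝ) x
      have hsm : ((((A : GL (Fin 2) ℝ) • x : ℍ) : ℂ) - w) * denom (A : GL (Fin 2) ℝ) x =
          (a - w * c) * x + (b - w * d) := by
        rw [coe_smul_of_det_pos (intPos_det_pos A), sub_mul, div_mul_cancel₀ _ hne]
        simp only [num, denom, ha, hb, hc, hd]
        ring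
      simp only [Polynomial.eval_add, Polynomial.eval_mul, Polynomial.eval_pow, Polynomial.eval_C,
        Polynomial.eval_X, ← hx, ← hden, ← hsm, Phi, mul_pow]
      ring

section

variable {N : ℕ} [NeZero N] {m : ℕ}

/-- Fundamental property: `wact m A (eich m g) - eich m (g | A)` is a polynomial function of
degree at most `m`. -/
theorem wact_eich_sub_mem (g g' : QSpace) (A : intPos)
    (hg : (g' : ℍ → ℂ) = (g : ℍ → ℂ) ∣[(m : ℤ) + 2] (A : GL (Fin 2) ℝ)) :
    wact m (A : GL (Fin 2) ℝ) (eich m g : ℍ → ℂ) - (eich m g' : ℍ → ℂ) ∈ PolFun m := by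
  have key : ∀ x : ℍ, IsPrim (fun z => denom (A : GL (Fin 2) ℝ) x ^ m *
      Phi m g ((A : GL (Fin 2) ℝ) • x : ℍ) ((A : GL (Fin 2) ℝ) • z) - Phi m g' x z) 0 := by
    intro x
    have h1 := ((isPrim_Phi m g (((A : GL (Fin 2) ℝ) • x : ℍ) : ℂ)).comp_smul A).smul
      (denom (A : GL (Fin 2) ℝ) x ^ m)
    have h2 := h1.sub (isPrim_Phi m g' x)
    refine IsPrim.congr_right h2 fun z => ?_
    simp only [Pi.zero_apply, Pi.sub_apply, Pi.smul_apply, smul_eq_mul]
    rw [hg, ModularForm.slash_apply, intPos_σ]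
    simp only [ContinuousAlgEquiv.refl_apply]
    have hz := denom_ne_zero (A : GL (Fin 2) ℝ) z
    have hx := denom_ne_zero (A : GL (Fin 2) ℝ) x
    have hdet : (|(A : GL (Fin 2) ℝ).det.val| : ℝ) = (A : GL (Fin 2) ℝ).val.det :=
      abs_of_pos (intPos_det_pos A)
    rw [hdet]
    have hsub := smul_sub_smul A x z
    set D : ℂ := (((A : GL (Fin 2) ℝ).val.det : ℝ) : ℂ)
    set u : ℂ := denom (A : GL (Fin 2) ℝ) x
    set v : ℂ := denom (A : GL (Fin 2) ℝ) z
    set y : ℂ := ((((A : GL (Fin 2) ℝ) • x : ℍ) : ℂ) - (((A : GL (Fin 2) ℝ) • z : ℍ) : ℂ))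
    have hpow : u ^ m * y ^ m * v ^ m = D ^ m * ((x : ℂ) - z) ^ m := by
      rw [← mul_pow, ← mul_pow, hsub, mul_pow]
    have hk : (m : ℤ) + 2 - 1 = ((m + 1 : ℕ) : ℤ) := by push_cast; ring
    have hk' : -((m : ℤ) + 2) = -((m + 2 : ℕ) : ℤ) := by push_cast; ring
    rw [hk, hk', zpow_natCast, zpow_neg, zpow_natCast]
    have hfac : ((m ! : ℕ) : ℂ) ≠ 0 := by exact_mod_cast m.factorial_ne_zero
    have : u ^ m * (y ^ m / (m ! : ℂ) * (g : ℍ → ℂ) ((A : GL (Fin 2) ℝ) • z) * (D / v ^ 2)) -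
        (x - z) ^ m / (m ! : ℂ) * ((g : ℍ → ℂ) ((A : GL (Fin 2) ℝ) • z) * D ^ (m + 1) *
          (v ^ (m + 2))⁻¹) = (g : ℍ → ℂ) ((A : GL (Fin 2) ℝ) • z) * D * (v ^ (m + 2))⁻¹ /
          (m ! : ℂ) * (u ^ m * y ^ m * v ^ m - D ^ m * ((x : ℂ) - z) ^ m) := by
      field_simp
      ring
    rw [this, hpow, sub_self, mul_zero]
  obtain ⟨P, hP, hP'⟩ := Phi_mem_PolFun m g A ((A : GL (Fin 2) ℝ) • UpperHalfPlane.I)
  obtain ⟨Q, hQ, hQ'⟩ := Phi_mem_PolFun m g' 1 UpperHalfPlane.I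
  refine ⟨P - Q, (Polynomial.natDegree_sub_le _ _).trans (max_le hP hQ), fun x => ?_⟩
  have h1 := (key x).eq_const x UpperHalfPlane.I
  simp only [Phi_self] at h1
  simp only [Pi.sub_apply, wact_apply, Polynomial.eval_sub]
  rw [h1, ← hP' x, ← hQ' x]
  simp

end

end Fermat.Agent.Eichler
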