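import Mathlib
import Fermat.Agent.Eichler.Taylor

set_option autoImplicit false

/-!
# The period lattice in the dual of the space of cusp forms
-/

open UpperHalfPlane Filter Topology Function
open Matrix.SpecialLinearGroup CongruenceSubgroup
open scoped Manifold Real MatrixGroups ModularForm Pointwise Nat

namespace Fermat.Agent.Eichler

/-! ### Polynomial functions -/

/-- Polynomial functions from coefficients. -/
noncomputable def polMap (m : ℕ) : (Fin (m + 1) → ℂ) →ₗ[ℂ] (ℍ → ℂ) where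
  toFun c := fun x => ∑ i, c i * (x : ℂ) ^ (i : ℕ)
  map_add' c c' := by ext x; simp [add_mul, Finset.sum_add_distrib]
  map_smul' a c := by ext x; simp [mul_assoc, Finset.mul_sum]

theorem polMap_apply (m : ℕ) (c : Fin (m + 1) → ℂ) (x : ℍ) :
    polMap m c x = ∑ i, c i * (x : ℂ) ^ (i : ℕ) := rfl

theorem polynomial_eq_zero_of_forall {P : Polynomial ℂ} (h : ∀ x : ℍ, P.eval (x : ℂ) = 0) :
    P = 0 := by
  apply Polynomial.eq_zero_of_infinite_isRoot
  have h1 : Set.range (fun n : ℕ => (((n : ℝ) + 1 : ℝ) : ℂ) * Complex.I) ⊆ {x | P.IsRoot x} := by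
    rintro _ ⟨n, rfl⟩
    have hpos : 0 < ((((n : ℝ) + 1 : ℝ) : ℂ) * Complex.I).im := by
      simp only [Complex.mul_im, Complex.ofReal_re, Complex.I_im, mul_one, Complex.ofReal_im,
        Complex.I_re, mul_zero, add_zero]
      positivity
    exact h ⟨_, hpos⟩
  refine (Set.infinite_range_of_injective ?_).mono h1
  intro a b hab
  have := mul_right_cancel₀ Complex.I_ne_zero hab
  have h2 : (a : ℝ) + 1 = b + 1 := by exact_mod_cast this
  exact_mod_cast (add_right_cancel h2)

theorem polMap_injective (m : ℕ) : Function.Injective (polMap m) := by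
  rw [injective_iff_map_eq_zero]
  intro c hc
  have h1 : (∑ i : Fin (m + 1), Polynomial.monomial (i : ℕ) (c i)) = 0 := by
    apply polynomial_eq_zero_of_forall
    intro x
    have := congrFun hc x
    rw [polMap_apply] at this
    simpa [Polynomial.eval_finsetSum] using this
  funext i
  have h2 := congrArg (fun P : Polynomial ℂ => P.coeff i) h1
  simp only [Polynomial.finsetSum_coeff, Polynomial.coeff_monomial, Polynomial.coeff_zero] at h2
  rw [Finset.sum_eq_single i] at h2
  · simpa using h2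
  · intro j _ hj
    rw [if_neg]
    exact fun h => hj (Fin.ext h)
  · simp

theorem exists_polMap_eq {m : ℕ} {F : ℍ → ℂ} (hF : F ∈ PolFun m) : ∃ c, polMap m c = F := by
  obtain ⟨P, hP, hP'⟩ := hF
  refine ⟨fun i => P.coeff i, ?_⟩
  ext x
  rw [hP' x, polMap_apply, Polynomial.eval_eq_sum_range' (Nat.lt_succ_of_le hP),
    Finset.sum_range]

theorem polMap_mem (m : ℕ) (c : Fin (m + 1) → ℂ) : polMap m c ∈ PolFun m := by
  refine ⟨∑ i : Fin (m + 1), Polynomial.monomial (i : ℕ) (c i), ?_, ?_⟩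
  · refine Polynomial.natDegree_sum_le_of_forall_le _ _ fun i _ => ?_
    exact (Polynomial.natDegree_monomial_le _).trans (Nat.lt_succ_iff.mp i.2)
  · intro x
    simp [polMap_apply, Polynomial.eval_finsetSum]

/-- A linear left inverse of `polMap`. -/
noncomputable def coef (m : ℕ) : (ℍ → ℂ) →ₗ[ℂ] (Fin (m + 1) → ℂ) :=
  (LinearMap.exists_leftInverse_of_injective (polMap m)
    (LinearMap.ker_eq_bot.mpr (polMap_injective m))).choose

theorem coef_polMap (m : ℕ) (c : Fin (m + 1) → ℂ) : coef m (polMap m c) = c :=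
  LinearMap.congr_fun (LinearMap.exists_leftInverse_of_injective (polMap m)
    (LinearMap.ker_eq_bot.mpr (polMap_injective m))).choose_spec c

theorem polMap_coef {m : ℕ} {F : ℍ → ℂ} (hF : F ∈ PolFun m) : polMap m (coef m F) = F := by
  obtain ⟨c, rfl⟩ := exists_polMap_eq hF
  rw [coef_polMap]

theorem eq_zero_of_mem_PolFun_of_tendsto {m : ℕ} {F : ℍ → ℂ} (hF : F ∈ PolFun m)
    (h0 : IsZeroAtImInfty F) : F = 0 := by
  obtain ⟨P, -, hP⟩ := hF
  obtain rfl : F = fun x : ℍ => P.eval (x : ℂ) := funext hP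
  rcases le_or_gt P.degree 0 with h | h
  · rw [Polynomial.eq_C_of_degree_le_zero h] at h0 ⊢
    exact eq_of_const_of_tendsto (fun z w => by simp) h0
  · exfalso
    have h1 : Tendsto (fun x : ℍ => ‖(x : ℂ)‖) atImInfty atTop := by
      refine tendsto_atTop_mono (fun x => ?_) (tendsto_comap : Tendsto UpperHalfPlane.im
        atImInfty atTop)
      exact (le_abs_self _).trans (Complex.abs_im_le_norm (x : ℂ))
    have h2 := Polynomial.tendsto_norm_atTop P h h1
    have h3 : Tendsto (fun x : ℍ => ‖P.eval (x : ℂ)‖) atImInfty (𝓝 ‖(0 : ℂ)‖) :=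
      (continuous_norm.tendsto 0).comp h0
    have : (atImInfty).NeBot := inferInstance
    exact not_tendsto_nhds_of_tendsto_atTop h2 _ h3

/-! ### `wact` on polynomial functions -/

/-- The integral matrix by which `wact m B` acts on coefficients. -/
noncomputable def wcoef (m : ℕ) (B : intPos) (i j : ℕ) : ℤ :=
  ((Polynomial.C (toInt B 0 0) * Polynomial.X + Polynomial.C (toInt B 0 1)) ^ i *
    (Polynomial.C (toInt B 1 0) * Polynomial.X + Polynomial.C (toInt B 1 1)) ^ (m - i) :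
      Polynomial ℤ).coeff j

theorem wact_polMap (m : ℕ) (B : intPos) (c : Fin (m + 1) → ℂ) :
    wact m (B : GL (Fin 2) ℝ) (polMap m c) =
      polMap m (fun j => ∑ i : Fin (m + 1), (wcoef m B (i : ℕ) (j : ℕ) : ℂ) * c i) := by
  ext x
  rw [wact_apply, polMap_apply, polMap_apply, Finset.mul_sum]
  simp only [Finset.sum_mul]
  rw [Finset.sum_comm]
  refine Finset.sum_congr rfl fun i _ => ?_
  have hi : (i : ℕ) ≤ m := Nat.lt_succ_iff.mp i.2
  set Q : Polynomial ℤ :=
    (Polynomial.C (toInt B 0 0) * Polynomial.X + Polynomial.C (toInt B 0 1)) ^ (i : ℕ) *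
    (Polynomial.C (toInt B 1 0) * Polynomial.X + Polynomial.C (toInt B 1 1)) ^ (m - i) with hQ
  have hdeg : Q.natDegree < m + 1 := by
    have h1 : ((Polynomial.C (toInt B 0 0) * Polynomial.X + Polynomial.C (toInt B 0 1)) ^
        (i : ℕ)).natDegree ≤ (i : ℕ) := by
      refine (Polynomial.natDegree_pow_le).trans ?_
      calc (i : ℕ) * _ ≤ (i : ℕ) * 1 := Nat.mul_le_mul_left _ Polynomial.natDegree_linear_le
        _ = i := by ring
    have h2 : ((Polynomial.C (toInt B 1 0) * Polynomial.X + Polynomial.C (toInt B 1 1)) ^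
        (m - i)).natDegree ≤ m - i := by
      refine (Polynomial.natDegree_pow_le).trans ?_
      calc (m - i) * _ ≤ (m - i) * 1 := Nat.mul_le_mul_left _ Polynomial.natDegree_linear_le
        _ = m - i := by ring
    have h3 := (Polynomial.natDegree_mul_le (p := (Polynomial.C (toInt B 0 0) * Polynomial.X +
      Polynomial.C (toInt B 0 1)) ^ (i : ℕ)) (q := (Polynomial.C (toInt B 1 0) * Polynomial.X +
      Polynomial.C (toInt B 1 1)) ^ (m - i)))
    rw [← hQ] at h3
    omega
  have hev := Polynomial.aeval_eq_sum_range' (S := ℂ) hdeg (x : ℂ)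
  have hev2 : Polynomial.aeval (x : ℂ) Q = ((toInt B 0 0 : ℂ) * x + toInt B 0 1) ^ (i : ℕ) *
      ((toInt B 1 0 : ℂ) * x + toInt B 1 1) ^ (m - i) := by
    simp [hQ]
  have hne := denom_ne_zero (B : GL (Fin 2) ℝ) x
  have hden : denom (B : GL (Fin 2) ℝ) x = (toInt B 1 0 : ℂ) * x + toInt B 1 1 := by
    simp only [denom, apply_eq_toInt]; push_cast; ring
  have hnum : num (B : GL (Fin 2) ℝ) x = (toInt B 0 0 : ℂ) * x + toInt B 0 1 := by
    simp only [num, apply_eq_toInt]; push_cast; ring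
  rw [coe_smul_of_det_pos (intPos_det_pos B), div_pow]
  calc denom (B : GL (Fin 2) ℝ) x ^ m * (c i * (num (B : GL (Fin 2) ℝ) x ^ (i : ℕ) /
        denom (B : GL (Fin 2) ℝ) x ^ (i : ℕ)))
      = c i * (num (B : GL (Fin 2) ℝ) x ^ (i : ℕ) * denom (B : GL (Fin 2) ℝ) x ^ (m - i)) := by
        have : denom (B : GL (Fin 2) ℝ) x ^ m = denom (B : GL (Fin 2) ℝ) x ^ (m - i) *
            denom (B : GL (Fin 2) ℝ) x ^ (i : ℕ) := by
          rw [← pow_add, Nat.sub_add_cancel hi]
        rw [this]; field_simp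
    _ = c i * Polynomial.aeval (x : ℂ) Q := by rw [hev2, hden, hnum]
    _ = ∑ j : Fin (m + 1), (wcoef m B (i : ℕ) (j : ℕ) : ℂ) * c i * (x : ℂ) ^ (j : ℕ) := by
        rw [hev, Finset.sum_range, Finset.mul_sum]
        refine Finset.sum_congr rfl fun j _ => ?_
        rw [wcoef, zsmul_eq_mul]
        ring

section lattice

variable (N : ℕ) [NeZero N] (m : ℕ)

/-- `E A f` is the Eichler integral of `f | A`. -/
noncomputable def E (A : intPos) : CuspForm (Gamma0 N) ((m : ℤ) + 2) →ₗ[ℂ] (ℍ → ℂ) :=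
  QSpace.subtype ∘ₗ eich m ∘ₗ slashLin N ((m : ℤ) + 2) A

/-- The basic period polynomials. -/
noncomputable def r (A B : intPos) : CuspForm (Gamma0 N) ((m : ℤ) + 2) →ₗ[ℂ] (ℍ → ℂ) :=
  wact m (B : GL (Fin 2) ℝ) ∘ₗ E N m A - E N m (A * B)

variable {N m}

theorem r_apply (A B : intPos) (f : CuspForm (Gamma0 N) ((m : ℤ) + 2)) :
    r N m A B f = wact m (B : GL (Fin 2) ℝ) (E N m A f) - E N m (A * B) f := rfl

theorem isZeroAtImInfty_E (A : intPos) (f : CuspForm (Gamma0 N) ((m : ℤ) + 2)) :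
    IsZeroAtImInfty (E N m A f) :=
  (eich m (slashLin N ((m : ℤ) + 2) A f)).2.2.1

theorem E_mul_of_mem {γ : SL(2, ℤ)} (hγ : γ ∈ Gamma0 N) (A : intPos) :
    E N m (ofSL γ * A) = E N m A := by
  rw [E, slashLin_mul_of_mem hγ, E]

theorem r_mul_of_mem {γ : SL(2, ℤ)} (hγ : γ ∈ Gamma0 N) (A B : intPos) :
    r N m (ofSL γ * A) B = r N m A B := by
  rw [r, r, mul_assoc, E_mul_of_mem hγ, E_mul_of_mem hγ]

theorem r_mem_PolFun (A B : intPos) (f : CuspForm (Gamma0 N) ((m : ℤ) + 2)) :
    r N m A B f ∈ PolFun m := by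
  refine wact_eich_sub_mem (slashLin N ((m : ℤ) + 2) A f) (slashLin N ((m : ℤ) + 2) (A * B) f) B ?_
  simp [SlashAction.slash_mul]

theorem r_cocycle (A B C : intPos) :
    r N m A (B * C) = wact m (C : GL (Fin 2) ℝ) ∘ₗ r N m A B + r N m (A * B) C := by
  ext f : 1
  simp only [LinearMap.add_apply, LinearMap.comp_apply, r_apply, map_sub, wact_mul, mul_assoc]
  abel

theorem r_one (A : intPos) : r N m A 1 = 0 := by
  ext f : 1
  rw [r_apply, mul_one, OneMemClass.coe_one, wact_one]
  simp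

theorem isZeroAtImInfty_wact {F : ℍ → ℂ} (hF : IsZeroAtImInfty F) {U : GL (Fin 2) ℝ}
    (hU : U 1 0 = 0) : IsZeroAtImInfty (wact m U F) := by
  have h1 : Tendsto (fun x : ℍ => F (U • x)) atImInfty (𝓝 0) :=
    Tendsto.comp hF (tendsto_smul_atImInfty hU)
  have h2 := h1.const_mul ((U 1 1 : ℂ) ^ m)
  rw [mul_zero] at h2
  refine h2.congr fun x => ?_
  simp [wact_apply, denom, hU]

theorem r_upper (A U : intPos) (hU : (U : GL (Fin 2) ℝ) 1 0 = 0) : r N m A U = 0 := by
  ext f : 1
  refine eq_zero_of_mem_PolFun_of_tendsto (r_mem_PolFun A U f) ?_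
  have h1 := isZeroAtImInfty_wact (m := m) (isZeroAtImInfty_E A f) hU
  have h2 := isZeroAtImInfty_E (A * U) f
  have h3 := Tendsto.sub h1 h2
  rw [sub_zero] at h3
  exact h3

end lattice

end Fermat.Agent.Eichler
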