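import Mathlib
import Fermat.Agent.Eichler.Lattice

set_option autoImplicit false

/-!
# The period lattice: finite generation, Hecke stability, faithfulness
-/

open UpperHalfPlane Filter Topology Function
open Matrix.SpecialLinearGroup CongruenceSubgroup
open scoped Manifold Real MatrixGroups ModularForm Pointwise

namespace Fermat.Agent.Eichler

variable {N : ℕ} [NeZero N] {m : ℕ}

/-- The `i`-th coefficient functional. -/
noncomputable def coefFun (R : CuspForm (Gamma0 N) ((m : ℤ) + 2) →ₗ[ℂ] (ℍ → ℂ))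
    (i : Fin (m + 1)) : Module.Dual ℂ (CuspForm (Gamma0 N) ((m : ℤ) + 2)) :=
  LinearMap.proj i ∘ₗ coef m ∘ₗ R

theorem coefFun_apply (R : CuspForm (Gamma0 N) ((m : ℤ) + 2) →ₗ[ℂ] (ℍ → ℂ))
    (i : Fin (m + 1)) (f : CuspForm (Gamma0 N) ((m : ℤ) + 2)) :
    coefFun R i f = coef m (R f) i := rfl

variable (N m) in
/-- The period lattice. -/
noncomputable def perLat : Submodule ℤ (Module.Dual ℂ (CuspForm (Gamma0 N) ((m : ℤ) + 2))) :=
  Submodule.span ℤ (Set.range fun p : SL(2, ℤ) × Fin (m + 1) =>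
    coefFun (r N m (ofSL p.1) (ofSL ModularGroup.S)) p.2)

variable (N m) in
/-- Polynomial-function-valued functionals with coefficients in `perLat`. -/
noncomputable def PolL : Submodule ℤ (CuspForm (Gamma0 N) ((m : ℤ) + 2) →ₗ[ℂ] (ℍ → ℂ)) where
  carrier := {R | (∀ f, R f ∈ PolFun m) ∧ ∀ i, coefFun R i ∈ perLat N m}
  zero_mem' := ⟨fun f => (PolFun m).zero_mem, fun i => by
    have : coefFun (0 : CuspForm (Gamma0 N) ((m : ℤ) + 2) →ₗ[ℂ] (ℍ → ℂ)) i = 0 := by
      ext f; simp [coefFun_apply]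
    rw [this]; exact Submodule.zero_mem _⟩
  add_mem' := by
    rintro R R' ⟨h1, h2⟩ ⟨h1', h2'⟩
    refine ⟨fun f => (PolFun m).add_mem (h1 f) (h1' f), fun i => ?_⟩
    have : coefFun (R + R') i = coefFun R i + coefFun R' i := by
      ext f; simp [coefFun_apply]
    rw [this]; exact Submodule.add_mem _ (h2 i) (h2' i)
  smul_mem' := by
    rintro c R ⟨h1, h2⟩
    refine ⟨fun f => ?_, fun i => ?_⟩
    · have : (c • R) f = (c : ℂ) • R f := by
        rw [LinearMap.smul_apply, Int.cast_smul_eq_zsmul]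
      rw [this]; exact (PolFun m).smul_mem _ (h1 f)
    · have : coefFun (c • R) i = c • coefFun R i := by
        ext f
        rw [coefFun_apply, LinearMap.smul_apply, LinearMap.smul_apply, map_zsmul, Pi.smul_apply,
          coefFun_apply]
      rw [this]; exact Submodule.smul_mem _ _ (h2 i)

theorem mem_PolL {R : CuspForm (Gamma0 N) ((m : ℤ) + 2) →ₗ[ℂ] (ℍ → ℂ)} :
    R ∈ PolL N m ↔ (∀ f, R f ∈ PolFun m) ∧ ∀ i, coefFun R i ∈ perLat N m := Iff.rfl

theorem wact_mem_PolL {R : CuspForm (Gamma0 N) ((m : ℤ) + 2) →ₗ[ℂ] (ℍ → ℂ)} (hR : R ∈ PolL N m)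
    (B : intPos) : wact m (B : GL (Fin 2) ℝ) ∘ₗ R ∈ PolL N m := by
  have key : ∀ f, wact m (B : GL (Fin 2) ℝ) (R f) = polMap m (fun j => ∑ i : Fin (m + 1),
      (wcoef m B (i : ℕ) (j : ℕ) : ℂ) * coef m (R f) i) := by
    intro f
    rw [← wact_polMap, polMap_coef (hR.1 f)]
  refine ⟨fun f => ?_, fun j => ?_⟩
  · rw [LinearMap.comp_apply, key]
    exact polMap_mem m _
  · have : coefFun (wact m (B : GL (Fin 2) ℝ) ∘ₗ R) j = ∑ i : Fin (m + 1),
        (wcoef m B (i : ℕ) (j : ℕ)) • coefFun R i := by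
      ext f
      rw [coefFun_apply, LinearMap.comp_apply, key, coef_polMap]
      simp [LinearMap.sum_apply, coefFun_apply]
    rw [this]
    exact Submodule.sum_mem _ fun i _ => Submodule.smul_mem _ _ (hR.2 i)

/-- `SL(2, ℤ)`-period polynomials have coefficients in the period lattice. -/
theorem r_SL_mem_PolL (γ δ : SL(2, ℤ)) : r N m (ofSL γ) (ofSL δ) ∈ PolL N m := by
  let H : Subgroup SL(2, ℤ) :=
    { carrier := {δ | ∀ γ, r N m (ofSL γ) (ofSL δ) ∈ PolL N m}
      one_mem' := fun γ => by rw [map_one, r_one]; exact Submodule.zero_mem _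
      mul_mem' := by
        intro a b ha hb γ
        rw [map_mul, r_cocycle, ← map_mul]
        exact Submodule.add_mem _ (wact_mem_PolL (ha γ) _) (hb _)
      inv_mem' := by
        intro a ha γ
        have h1 := r_cocycle (N := N) (m := m) (ofSL (γ * a⁻¹)) (ofSL a) (ofSL a⁻¹)
        rw [← map_mul, ← map_mul, mul_inv_cancel, map_one, r_one, inv_mul_cancel_right] at h1
        have h2 : r N m (ofSL γ) (ofSL a⁻¹) =
            - (wact m ((ofSL a⁻¹ : intPos) : GL (Fin 2) ℝ) ∘ₗ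
              r N m (ofSL (γ * a⁻¹)) (ofSL a)) := by
          rw [eq_neg_iff_add_eq_zero]; exact (add_comm _ _).trans h1.symm
        rw [h2]
        exact Submodule.neg_mem _ (wact_mem_PolL (ha _) _) }
  have hS : ModularGroup.S ∈ H := fun γ =>
    ⟨fun f => r_mem_PolFun _ _ f, fun i => Submodule.subset_span ⟨(γ, i), rfl⟩⟩
  have hT : ModularGroup.T ∈ H := fun γ => by
    rw [r_upper]
    · exact Submodule.zero_mem _
    · rw [coe_ofSL, mapGL_coe_matrix, map_apply_coe]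
      simp [ModularGroup.T]
  have hH : H = ⊤ := by
    rw [eq_top_iff, ← SpecialLinearGroup.SL2Z_generators, Subgroup.closure_le]
    rintro x (rfl | rfl)
    · exact hS
    · exact hT
  have : δ ∈ H := hH ▸ Subgroup.mem_top δ
  exact this γ

/-- Every integral matrix of positive determinant is `γ U` with `γ ∈ SL(2, ℤ)` and `U` upper
triangular. -/
theorem exists_factor (A : intPos) : ∃ (γ : SL(2, ℤ)) (U : intPos),
    (U : GL (Fin 2) ℝ) 1 0 = 0 ∧ A = ofSL γ * U := by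
  suffices h : ∃ γ : SL(2, ℤ), ((ofSL γ * A : intPos) : GL (Fin 2) ℝ) 1 0 = 0 by
    obtain ⟨γ, hγ⟩ := h
    refine ⟨γ⁻¹, ofSL γ * A, hγ, ?_⟩
    rw [← mul_assoc, ← map_mul, inv_mul_cancel, map_one, one_mul]
  have hgcd : IsCoprime (toInt A 0 0 / Int.gcd (toInt A 0 0) (toInt A 1 0))
      (toInt A 1 0 / Int.gcd (toInt A 0 0) (toInt A 1 0)) := by
    have hpos : 0 < Int.gcd (toInt A 0 0) (toInt A 1 0) := by
      rw [Int.gcd_pos_iff]
      by_contra hcon
      push Not at hcon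
      have := det_toInt_pos A
      rw [Matrix.det_fin_two, hcon.1, hcon.2] at this
      simp at this
    rw [Int.isCoprime_iff_gcd_eq_one]
    exact Int.gcd_div_gcd_div_gcd hpos
  obtain ⟨γ, h0, h1⟩ := (hgcd.symm.neg_left).exists_SL2_row 1
  refine ⟨γ, ?_⟩
  rw [Submonoid.coe_mul, coe_ofSL, Units.val_mul, Matrix.mul_apply, Fin.sum_univ_two,
    mapGL_coe_matrix, map_apply_coe, apply_eq_toInt, apply_eq_toInt]
  simp only [RingHom.mapMatrix_apply, Matrix.map_apply, h0, h1]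
  have hd0 : (Int.gcd (toInt A 0 0) (toInt A 1 0) : ℤ) ∣ toInt A 0 0 := Int.gcd_dvd_left ..
  have hd1 : (Int.gcd (toInt A 0 0) (toInt A 1 0) : ℤ) ∣ toInt A 1 0 := Int.gcd_dvd_right ..
  have : -(toInt A 1 0 / (Int.gcd (toInt A 0 0) (toInt A 1 0) : ℤ)) * toInt A 0 0 +
      toInt A 0 0 / (Int.gcd (toInt A 0 0) (toInt A 1 0) : ℤ) * toInt A 1 0 = 0 := by
    obtain ⟨u, hu⟩ := hd0
    obtain ⟨v, hv⟩ := hd1
    have hg : (Int.gcd (toInt A 0 0) (toInt A 1 0) : ℤ) ≠ 0 := by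
      intro h
      rw [h] at hu hv
      have := det_toInt_pos A
      rw [Matrix.det_fin_two, hu, hv] at this
      simp at this
    set g := (Int.gcd (toInt A 0 0) (toInt A 1 0) : ℤ) with hgdef
    have e0 : toInt A 0 0 / g = u := by rw [hu]; exact Int.mul_ediv_cancel_left _ hg
    have e1 : toInt A 1 0 / g = v := by rw [hv]; exact Int.mul_ediv_cancel_left _ hg
    rw [e0, e1, hu, hv]; ring
  have h2 := congrArg (Int.cast : ℤ → ℝ) this
  push_cast at h2
  simpa using h2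

/-- Period polynomials attached to arbitrary integral matrices have coefficients in the
period lattice. -/
theorem r_mem_PolL (A : intPos) (δ : SL(2, ℤ)) : r N m A (ofSL δ) ∈ PolL N m := by
  obtain ⟨γ, U, hU, hA⟩ := exists_factor A
  obtain ⟨γ', U', hU', hA'⟩ := exists_factor (A * ofSL δ)
  have e1 : E N m A = wact m (U : GL (Fin 2) ℝ) ∘ₗ E N m (ofSL γ) := by
    have := r_upper (N := N) (m := m) (ofSL γ) U hU
    rw [r, sub_eq_zero, ← hA] at this
    exact this.symm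
  have e2 : E N m (A * ofSL δ) = wact m (U' : GL (Fin 2) ℝ) ∘ₗ E N m (ofSL γ') := by
    have := r_upper (N := N) (m := m) (ofSL γ') U' hU'
    rw [r, sub_eq_zero, ← hA'] at this
    exact this.symm
  have e3 : U * ofSL δ = ofSL (γ⁻¹ * γ') * U' := by
    rw [map_mul, mul_assoc, ← hA', hA, ← mul_assoc, ← mul_assoc, ← map_mul, inv_mul_cancel,
      map_one, one_mul]
  have e4 : r N m A (ofSL δ) =
      wact m (U' : GL (Fin 2) ℝ) ∘ₗ r N m (ofSL γ) (ofSL (γ⁻¹ * γ')) := by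
    rw [r, e2, e1]
    ext f : 1
    simp only [LinearMap.sub_apply, LinearMap.comp_apply, r_apply, map_sub]
    rw [← wact_mul, ← wact_mul, e3, ← map_mul, mul_inv_cancel_left]
  rw [e4]
  exact wact_mem_PolL (r_SL_mem_PolL _ _) _

/-! ### Finite generation -/

theorem perLat_fg : (perLat N m).FG := by
  have hfin : (Set.range fun p : SL(2, ℤ) × Fin (m + 1) =>
      coefFun (r N m (ofSL p.1) (ofSL ModularGroup.S)) p.2).Finite := by
    have : Finite (SL(2, ℤ) ⧸ Gamma0 N) := Subgroup.finite_quotient_of_finiteIndex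
    refine (Set.finite_range fun p : (SL(2, ℤ) ⧸ Gamma0 N) × Fin (m + 1) =>
      coefFun (r N m (ofSL (p.1.out)⁻¹) (ofSL ModularGroup.S)) p.2).subset ?_
    rintro _ ⟨⟨γ, i⟩, rfl⟩
    refine ⟨((QuotientGroup.mk γ⁻¹ : SL(2, ℤ) ⧸ Gamma0 N), i), ?_⟩
    obtain ⟨h, hh⟩ := QuotientGroup.mk_out_eq_mul (Gamma0 N) γ⁻¹
    simp only
    rw [hh, mul_inv_rev, inv_inv, map_mul, r_mul_of_mem (inv_mem h.2)]
  exact Submodule.fg_span hfin

/-! ### Hecke stability -/

theorem slashLin_heckeTLin {p : ℕ} (hp : p.Prime) (hpN : ¬ p ∣ N) (A : intPos)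
    (f : CuspForm (Gamma0 N) ((m : ℤ) + 2)) :
    slashLin N ((m : ℤ) + 2) A (CuspForm.heckeTLin _ hp hpN f) =
      (∑ j ∈ Finset.range p, slashLin N ((m : ℤ) + 2)
        (⟨_, heckeMatrix_mem hp.ne_zero j⟩ * A) f) +
      slashLin N ((m : ℤ) + 2) (⟨_, heckeDiagMatrix_mem hp.ne_zero⟩ * A) f := by
  apply Subtype.ext
  rw [coe_slashLin, CuspForm.coe_heckeTLin_apply, ModularForm.heckeT_def, SlashAction.add_slash,
    SlashAction.sum_slash, Submodule.coe_add, AddSubmonoidClass.coe_finsetSum]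
  simp only [coe_slashLin, Submonoid.coe_mul, SlashAction.slash_mul]

theorem slashLin_heckeULin {p : ℕ} (hp : p.Prime) (hpN : p ∣ N) (A : intPos)
    (f : CuspForm (Gamma0 N) ((m : ℤ) + 2)) :
    slashLin N ((m : ℤ) + 2) A (CuspForm.heckeULin _ hpN f) =
      (∑ j ∈ Finset.range p, slashLin N ((m : ℤ) + 2)
        (⟨_, heckeMatrix_mem hp.ne_zero j⟩ * A) f) := by
  apply Subtype.ext
  rw [coe_slashLin, CuspForm.coe_heckeULin_apply, ModularForm.heckeU_def,
    SlashAction.sum_slash, AddSubmonoidClass.coe_finsetSum]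
  simp only [coe_slashLin, Submonoid.coe_mul, SlashAction.slash_mul]

theorem E_heckeTLin {p : ℕ} (hp : p.Prime) (hpN : ¬ p ∣ N) (A : intPos) :
    E N m A ∘ₗ CuspForm.heckeTLin _ hp hpN =
      (∑ j ∈ Finset.range p, E N m (⟨_, heckeMatrix_mem hp.ne_zero j⟩ * A)) +
      E N m (⟨_, heckeDiagMatrix_mem hp.ne_zero⟩ * A) := by
  ext f : 1
  simp only [E, LinearMap.comp_apply, LinearMap.add_apply, LinearMap.sum_apply,
    slashLin_heckeTLin, map_add, map_sum]

theorem E_heckeULin {p : ℕ} (hp : p.Prime) (hpN : p ∣ N) (A : intPos) :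
    E N m A ∘ₗ CuspForm.heckeULin _ hpN =
      (∑ j ∈ Finset.range p, E N m (⟨_, heckeMatrix_mem hp.ne_zero j⟩ * A)) := by
  ext f : 1
  simp only [E, LinearMap.comp_apply, LinearMap.sum_apply, slashLin_heckeULin hp, map_sum]

theorem r_heckeTLin {p : ℕ} (hp : p.Prime) (hpN : ¬ p ∣ N) (A B : intPos) :
    r N m A B ∘ₗ CuspForm.heckeTLin _ hp hpN =
      (∑ j ∈ Finset.range p, r N m (⟨_, heckeMatrix_mem hp.ne_zero j⟩ * A) B) +
      r N m (⟨_, heckeDiagMatrix_mem hp.ne_zero⟩ * A) B := by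
  ext f : 1
  have h1 := LinearMap.congr_fun (E_heckeTLin (N := N) (m := m) hp hpN A) f
  have h2 := LinearMap.congr_fun (E_heckeTLin (N := N) (m := m) hp hpN (A * B)) f
  simp only [LinearMap.comp_apply, LinearMap.add_apply, LinearMap.sum_apply] at h1 h2
  simp only [LinearMap.comp_apply, LinearMap.add_apply, LinearMap.sum_apply, r_apply, h1, h2,
    map_add, map_sum, Finset.sum_sub_distrib, mul_assoc]
  abel

theorem r_heckeULin {p : ℕ} (hp : p.Prime) (hpN : p ∣ N) (A B : intPos) :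
    r N m A B ∘ₗ CuspForm.heckeULin _ hpN =
      (∑ j ∈ Finset.range p, r N m (⟨_, heckeMatrix_mem hp.ne_zero j⟩ * A) B) := by
  ext f : 1
  have h1 := LinearMap.congr_fun (E_heckeULin (N := N) (m := m) hp hpN A) f
  have h2 := LinearMap.congr_fun (E_heckeULin (N := N) (m := m) hp hpN (A * B)) f
  simp only [LinearMap.comp_apply, LinearMap.sum_apply] at h1 h2
  simp only [LinearMap.comp_apply, LinearMap.sum_apply, r_apply, h1, h2,
    map_sum, Finset.sum_sub_distrib, mul_assoc]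

theorem perLat_comp_mem {t : Module.End ℂ (CuspForm (Gamma0 N) ((m : ℤ) + 2))}
    (ht : ∀ γ : SL(2, ℤ), r N m (ofSL γ) (ofSL ModularGroup.S) ∘ₗ t ∈ PolL N m)
    {φ : Module.Dual ℂ (CuspForm (Gamma0 N) ((m : ℤ) + 2))} (hφ : φ ∈ perLat N m) :
    φ ∘ₗ t ∈ perLat N m := by
  induction hφ using Submodule.span_induction with
  | mem x hx =>
    obtain ⟨⟨γ, i⟩, rfl⟩ := hx
    exact (ht γ).2 i
  | zero => simp
  | add x y _ _ hx hy => rw [LinearMap.add_comp]; exact Submodule.add_mem _ hx hy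
  | smul a x _ hx => rw [LinearMap.smul_comp]; exact Submodule.smul_mem _ _ hx

theorem perLat_heckeTLin {p : ℕ} (hp : p.Prime) (hpN : ¬ p ∣ N)
    {φ : Module.Dual ℂ (CuspForm (Gamma0 N) ((m : ℤ) + 2))} (hφ : φ ∈ perLat N m) :
    φ ∘ₗ CuspForm.heckeTLin _ hp hpN ∈ perLat N m := by
  refine perLat_comp_mem (fun γ => ?_) hφ
  rw [r_heckeTLin hp hpN]
  exact Submodule.add_mem _ (Submodule.sum_mem _ fun j _ => r_mem_PolL _ _) (r_mem_PolL _ _)

theorem perLat_heckeULin {p : ℕ} (hp : p.Prime) (hpN : p ∣ N)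
    {φ : Module.Dual ℂ (CuspForm (Gamma0 N) ((m : ℤ) + 2))} (hφ : φ ∈ perLat N m) :
    φ ∘ₗ CuspForm.heckeULin _ hpN ∈ perLat N m := by
  refine perLat_comp_mem (fun γ => ?_) hφ
  rw [r_heckeULin hp hpN]
  exact Submodule.sum_mem _ fun j _ => r_mem_PolL _ _

end Fermat.Agent.Eichler
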