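import Mathlib
import Fermat.Prelude.Def_CuspForm_HeckeAlgebra
import Fermat.Agent.Eichler.PeriodLattice

set_option autoImplicit false

/-!
# Faithfulness of the period lattice and finiteness of the Hecke algebra
-/

open UpperHalfPlane Filter Topology Function
open Matrix.SpecialLinearGroup CongruenceSubgroup
open scoped Manifold Real MatrixGroups ModularForm Pointwise

namespace Fermat.Agent.Eichler

variable {N : ℕ} [NeZero N] {m : ℕ}

theorem eq_zero_of_mem_PolL {R : CuspForm (Gamma0 N) ((m : ℤ) + 2) →ₗ[ℂ] (ℍ → ℂ)}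
    (hR : R ∈ PolL N m) {f : CuspForm (Gamma0 N) ((m : ℤ) + 2)}
    (hf : ∀ l ∈ perLat N m, l f = 0) : R f = 0 := by
  rw [← polMap_coef (hR.1 f)]
  have : coef m (R f) = 0 := by
    funext i
    exact hf _ (hR.2 i)
  rw [this, map_zero]

theorem wact_eq_slash (F : ℍ → ℂ) (δ : SL(2, ℤ)) :
    wact m ((ofSL δ : intPos) : GL (Fin 2) ℝ) F = F ∣[(-(m : ℤ))] δ := by
  ext x
  rw [ModularForm.SL_slash_apply, wact_apply, neg_neg, zpow_natCast, mul_comm]
  rfl

/-- The period lattice separates cusp forms. -/
theorem eq_zero_of_perLat {f : CuspForm (Gamma0 N) ((m : ℤ) + 2)}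
    (hf : ∀ l ∈ perLat N m, l f = 0) : f = 0 := by
  have h1 : ∀ δ : SL(2, ℤ), (E N m 1 f) ∣[(-(m : ℤ))] δ = E N m (ofSL δ) f := by
    intro δ
    have := eq_zero_of_mem_PolL (r_SL_mem_PolL (N := N) (m := m) 1 δ) hf
    rw [map_one, r_apply, sub_eq_zero, one_mul, wact_eq_slash] at this
    exact this
  set F : ℍ → ℂ := E N m 1 f with hF
  have hF0 : IsZeroAtImInfty F := isZeroAtImInfty_E 1 f
  have hFhol : MDiff F := (eich m (slashLin N ((m : ℤ) + 2) 1 f)).2.1
  let G : ModularForm (Gamma0 N) (-(m : ℤ)) :=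
    { toFun := F
      slash_action_eq' := by
        rintro _ ⟨γ, hγ, rfl⟩
        have h2 := h1 γ
        have h3 : E N m (ofSL γ) = E N m 1 := by
          have := E_mul_of_mem (N := N) (m := m) hγ 1
          rwa [mul_one] at this
        rw [h3] at h2
        exact h2
      holo' := hFhol
      bdd_at_cusps' := by
        intro c hc
        rw [Subgroup.IsArithmetic.isCusp_iff_isCusp_SL2Z] at hc
        rw [OnePoint.isBoundedAt_iff_forall_SL2Z hc]
        intro γ _
        have h2 := h1 γ
        show IsBoundedAtImInfty (F ∣[(-(m : ℤ))] γ)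
        rw [h2]
        exact (isZeroAtImInfty_E _ f).isBoundedAtImInfty }
  have hG : F = 0 := by
    rcases Nat.eq_zero_or_pos m with hm | hm
    · have hm' : (-(m : ℤ)) = 0 := by rw [hm]; simp
      obtain ⟨c, hc⟩ := ModularForm.eq_const_of_weight_zero (ModularForm.mcast hm' G)
      have hc' : F = Function.const ℍ c := hc
      exact eq_of_const_of_tendsto (fun z w => by rw [hc']; rfl) hF0
    · have hneg : (-(m : ℤ)) < 0 := by omega
      have := ModularForm.isZero_of_neg_weight hneg G
      exact congrArg (fun G : ModularForm (Gamma0 N) (-(m : ℤ)) => (G : ℍ → ℂ)) this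
  have h2 : eich m (slashLin N ((m : ℤ) + 2) 1 f) = 0 := Subtype.ext hG
  have h3 : slashLin N ((m : ℤ) + 2) 1 f = 0 := eich_injective m (by rw [h2, map_zero])
  have h4 : (f : ℍ → ℂ) = 0 := by
    have := congrArg Subtype.val h3
    rw [coe_slashLin, OneMemClass.coe_one, SlashAction.slash_one] at this
    exact this
  exact DFunLike.coe_injective h4

variable (N m) in
/-- The subalgebra of endomorphisms preserving the period lattice. -/
noncomputable def perStab : Subalgebra ℤ (Module.End ℂ (CuspForm (Gamma0 N) ((m : ℤ) + 2))) where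
  carrier := {t | ∀ l ∈ perLat N m, l ∘ₗ t ∈ perLat N m}
  mul_mem' := by
    intro a b ha hb l hl
    have : l ∘ₗ (a * b) = (l ∘ₗ a) ∘ₗ b := rfl
    rw [this]
    exact hb _ (ha _ hl)
  add_mem' := by
    intro a b ha hb l hl
    rw [LinearMap.comp_add]
    exact Submodule.add_mem _ (ha _ hl) (hb _ hl)
  algebraMap_mem' := by
    intro n l hl
    have : l ∘ₗ (algebraMap ℤ (Module.End ℂ (CuspForm (Gamma0 N) ((m : ℤ) + 2))) n) = n • l := by
      ext f
      simp
    rw [this]
    exact Submodule.smul_mem _ _ hl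

theorem heckeAlgebra_le_perStab (S : Set ℕ) :
    CuspForm.heckeAlgebra N ((m : ℤ) + 2) S ≤ perStab N m := by
  refine Algebra.adjoin_le ?_
  rintro T (⟨l, hl, hlN, -, rfl⟩ | ⟨q, hqN, hq, -, rfl⟩)
  · exact fun x hx => perLat_heckeTLin hl hlN hx
  · exact fun x hx => perLat_heckeULin hq hqN hx

theorem moduleFinite_perStab : Module.Finite ℤ (perStab N m) := by
  have : Module.Finite ℤ (perLat N m) := Module.Finite.of_fg perLat_fg
  let Ψ : perStab N m →ₗ[ℤ] (perLat N m →ₗ[ℤ] perLat N m) :=
    { toFun := fun t =>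
        { toFun := fun l => ⟨(l : Module.Dual ℂ _) ∘ₗ (t : Module.End ℂ _), t.2 _ l.2⟩
          map_add' := fun l l' => Subtype.ext (LinearMap.add_comp _ _ _)
          map_smul' := fun c l => Subtype.ext (by
            ext f
            simp) }
      map_add' := fun t t' => by
        ext l f
        simp
      map_smul' := fun c t => by
        ext l f
        simp }
  refine Module.Finite.of_injective Ψ ?_
  rw [injective_iff_map_eq_zero]
  intro t ht
  apply Subtype.ext
  ext1 f
  apply eq_zero_of_perLat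
  intro l hl
  have := congrArg Subtype.val (LinearMap.congr_fun ht ⟨l, hl⟩)
  exact LinearMap.congr_fun this f

theorem moduleFinite_heckeAlgebra_of_two_le (S : Set ℕ) :
    Module.Finite ℤ (CuspForm.heckeAlgebra N ((m : ℤ) + 2) S) := by
  have := moduleFinite_perStab (N := N) (m := m)
  let ι : CuspForm.heckeAlgebra N ((m : ℤ) + 2) S →ₗ[ℤ] perStab N m :=
    (Subalgebra.inclusion (heckeAlgebra_le_perStab S)).toLinearMap
  exact Module.Finite.of_injective ι
    (Subalgebra.inclusion_injective (heckeAlgebra_le_perStab (N := N) (m := m) S))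

/-- Cusp forms of weight `≤ 1` on `Γ₀(N)` vanish. -/
theorem cuspForm_eq_zero_of_lt_two {k : ℤ} (hk : k < 2) (f : CuspForm (Gamma0 N) k) : f = 0 := by
  apply CuspForm.toModularFormₗ_injective
  rw [map_zero]
  rcases lt_trichotomy k 0 with h | h | h
  · exact ModularForm.isZero_of_neg_weight h _
  · subst h
    obtain ⟨c, hc⟩ := ModularForm.eq_const_of_weight_zero (CuspForm.toModularFormₗ f)
    have h1 : (f : ℍ → ℂ) = Function.const ℍ c := hc
    have h2 : (f : ℍ → ℂ) = 0 :=
      eq_of_const_of_tendsto (fun z w => by rw [h1]; rfl) (CuspFormClass.zero_at_infty f)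
    exact DFunLike.coe_injective h2
  · obtain rfl : k = 1 := by omega
    refine ModularForm.eq_zero_of_neg_one_mem ?_ odd_one _
    refine ⟨-1, ?_, ?_⟩
    · rw [SetLike.mem_coe, Gamma0_mem]; simp
    · ext i j; fin_cases i <;> fin_cases j <;> simp

/-- The Hecke algebra is a finitely generated abelian group. -/
theorem moduleFinite_heckeAlgebra (k : ℤ) (S : Set ℕ) :
    Module.Finite ℤ (CuspForm.heckeAlgebra N k S) := by
  rcases lt_or_ge k 2 with hk | hk
  · have : Subsingleton (CuspForm (Gamma0 N) k) :=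
      ⟨fun f g => by rw [cuspForm_eq_zero_of_lt_two hk f, cuspForm_eq_zero_of_lt_two hk g]⟩
    have : Subsingleton (Module.End ℂ (CuspForm (Gamma0 N) k)) := inferInstance
    have : Subsingleton (CuspForm.heckeAlgebra N k S) := inferInstance
    infer_instance
  · obtain ⟨m, rfl⟩ : ∃ m : ℕ, k = (m : ℤ) + 2 := ⟨(k - 2).toNat, by omega⟩
    exact moduleFinite_heckeAlgebra_of_two_le S

end Fermat.Agent.Eichler
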